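import Mathlib.NumberTheory.ModularForms.Derivative

set_option autoImplicit false

open UpperHalfPlane hiding I
open Real Complex Derivative
open scoped Manifold MatrixGroups ModularForm Topology

namespace Fermat.Agent.S22_helper15

noncomputable section

theorem iterate_D_mdiff (m : ℕ) {F : ℍ → ℂ} (hF : MDiff F) : MDiff (D^[m] F) := by
  induction m with
  | zero => simpa using hF
  | succ n ih =>
    rw [Function.iterate_succ_apply']
    exact normalizedDerivOfComplex_mdifferentiable ih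

theorem iterate_D_add (m : ℕ) {F G : ℍ → ℂ} (hF : MDiff F) (hG : MDiff G) :
    D^[m] (F + G) = D^[m] F + D^[m] G := by
  induction m with
  | zero => simp
  | succ n ih =>
    rw [Function.iterate_succ_apply', Function.iterate_succ_apply', Function.iterate_succ_apply',
      ih, normalizedDerivOfComplex_add _ _ (iterate_D_mdiff n hF) (iterate_D_mdiff n hG)]

theorem iterate_D_sub (m : ℕ) {F G : ℍ → ℂ} (hF : MDiff F) (hG : MDiff G) :
    D^[m] (F - G) = D^[m] F - D^[m] G := by
  induction m with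
  | zero => simp
  | succ n ih =>
    rw [Function.iterate_succ_apply', Function.iterate_succ_apply', Function.iterate_succ_apply',
      ih, normalizedDerivOfComplex_sub _ _ (iterate_D_mdiff n hF) (iterate_D_mdiff n hG)]

theorem iterate_D_smul (m : ℕ) (c : ℂ) {F : ℍ → ℂ} (hF : MDiff F) :
    D^[m] (c • F) = c • D^[m] F := by
  induction m with
  | zero => simp
  | succ n ih =>
    rw [Function.iterate_succ_apply', Function.iterate_succ_apply',
      ih, normalizedDerivOfComplex_smul _ _ (iterate_D_mdiff n hF)]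

theorem iterate_D_zero (m : ℕ) : D^[m] (0 : ℍ → ℂ) = 0 := by
  induction m with
  | zero => simp
  | succ n ih =>
    rw [Function.iterate_succ_apply', ih]
    exact normalizedDerivOfComplex_const 0

theorem mdiff_finset_sum {ι : Type*} (s : Finset ι) {F : ι → ℍ → ℂ}
    (hF : ∀ i ∈ s, MDiff (F i)) : MDiff (∑ i ∈ s, F i) := by
  classical
  induction s using Finset.induction_on with
  | empty =>
    simp only [Finset.sum_empty]
    exact (mdifferentiable_const : MDiff (fun _ : ℍ => (0 : ℂ)))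
  | insert a s ha ih =>
    rw [Finset.sum_insert ha]
    exact (hF a (Finset.mem_insert_self a s)).add
      (ih fun i hi => hF i (Finset.mem_insert_of_mem hi))

theorem iterate_D_finset_sum (m : ℕ) {ι : Type*} (s : Finset ι) {F : ι → ℍ → ℂ}
    (hF : ∀ i ∈ s, MDiff (F i)) : D^[m] (∑ i ∈ s, F i) = ∑ i ∈ s, D^[m] (F i) := by
  classical
  induction s using Finset.induction_on with
  | empty => simpa using iterate_D_zero m
  | insert a s ha ih =>
    rw [Finset.sum_insert ha, Finset.sum_insert ha,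
      iterate_D_add m (hF a (Finset.mem_insert_self a s))
        (mdiff_finset_sum s fun i hi => hF i (Finset.mem_insert_of_mem hi)),
      ih fun i hi => hF i (Finset.mem_insert_of_mem hi)]


theorem D_denom (g : GL (Fin 2) ℝ) :
    D (fun τ : ℍ ↦ denom g τ) = fun _ ↦ (2 * π * I)⁻¹ * (g 1 0 : ℂ) := by
  ext z
  simp only [normalizedDerivOfComplex]
  congr 1
  have hd : HasDerivAt (fun w : ℂ ↦ denom g w) (g 1 0 : ℂ) (z : ℂ) := by
    simpa using hasDerivAt_denom_zpow g 1 z
  have hcomp : ((fun τ : ℍ ↦ denom g τ) ∘ ofComplex) =ᶠ[𝓝 (z : ℂ)] fun w : ℂ ↦ denom g w := by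
    filter_upwards [isOpen_upperHalfPlaneSet.mem_nhds z.im_pos] with w hw
    simp [Function.comp_apply, ofComplex_apply_of_im_pos hw]
  exact (hd.congr_of_eventuallyEq hcomp).deriv

theorem iterate_D_denom_mul (n : ℕ) (g : GL (Fin 2) ℝ) {H : ℍ → ℂ} (hH : MDiff H) :
    D^[n + 1] ((fun τ : ℍ ↦ denom g τ) * H) =
      (fun τ : ℍ ↦ denom g τ) * D^[n + 1] H +
        (((n : ℂ) + 1) * ((2 * π * I)⁻¹ * (g 1 0 : ℂ))) • D^[n] H := by
  have hJ : MDiff (fun τ : ℍ ↦ denom g τ) := mdifferentiable_denom g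
  induction n with
  | zero =>
    simp only [Function.iterate_succ, Function.iterate_zero, Function.comp_apply, id_eq]
    rw [normalizedDerivOfComplex_mul _ _ hJ hH, D_denom]
    ext z
    simp only [Pi.add_apply, Pi.mul_apply, Pi.smul_apply, smul_eq_mul]
    push_cast
    ring
  | succ n ih =>
    have h1 : MDiff (D^[n + 1] H) := iterate_D_mdiff (n + 1) hH
    have h0 : MDiff (D^[n] H) := iterate_D_mdiff n hH
    rw [Function.iterate_succ_apply' D (n + 1), ih,
      normalizedDerivOfComplex_add _ _ (hJ.mul h1) (h0.const_smul _),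
      normalizedDerivOfComplex_mul _ _ hJ h1, D_denom,
      normalizedDerivOfComplex_smul _ _ h0,
      ← Function.iterate_succ_apply' D (n + 1), ← Function.iterate_succ_apply' D n]
    ext z
    simp only [Pi.add_apply, Pi.mul_apply, Pi.smul_apply, smul_eq_mul]
    push_cast
    ring

theorem slash_eq_denom_mul_slash_succ (k : ℤ) (F : ℍ → ℂ) {g : GL (Fin 2) ℝ}
    (hg : 0 < g.val.det) :
    F ∣[k] g = ((g.val.det : ℂ)⁻¹) • ((fun τ : ℍ ↦ denom g τ) * (F ∣[k + 1] g)) := by
  have hdet : g.det.val = g.val.det := Matrix.GeneralLinearGroup.val_det_apply g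
  have hdetℂ : (g.val.det : ℂ) ≠ 0 := Complex.ofReal_ne_zero.mpr hg.ne'
  ext z
  have hz := denom_ne_zero g z
  simp only [ModularForm.slash_apply, Pi.smul_apply, Pi.mul_apply, smul_eq_mul, hdet,
    abs_of_pos hg]
  rw [show k + 1 - 1 = (k - 1) + 1 by ring, show -(k + 1) = -k - 1 by ring,
    zpow_add_one₀ hdetℂ, zpow_sub_one₀ hz]
  field_simp

theorem bol (m : ℕ) {F : ℍ → ℂ} (hF : MDiff F) {g : GL (Fin 2) ℝ} (hg : 0 < g.val.det) :
    D^[m] (F ∣[(1 : ℤ) - m] g) = ((g.val.det : ℂ)⁻¹) ^ m • ((D^[m] F) ∣[(1 : ℤ) + m] g) := by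
  have hdetℂ : (g.val.det : ℂ) ≠ 0 := Complex.ofReal_ne_zero.mpr hg.ne'
  have hgd : 0 < g.det.val := by rwa [Matrix.GeneralLinearGroup.val_det_apply]
  induction m with
  | zero => simp
  | succ m ih =>
    set G : ℍ → ℂ := D^[m] F with hG
    have hGm : MDiff G := iterate_D_mdiff m hF
    set H : ℍ → ℂ := F ∣[(1 : ℤ) - m] g with hHdef
    have hH : MDiff H := hF.slash _ g
    have hJ : MDiff (fun τ : ℍ ↦ denom g τ) := mdifferentiable_denom g
    have hw1 : F ∣[(1 : ℤ) - ((m + 1 : ℕ) : ℤ)] g =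
        ((g.val.det : ℂ)⁻¹) • ((fun τ : ℍ ↦ denom g τ) * H) := by
      rw [slash_eq_denom_mul_slash_succ _ F hg, hHdef]
      congr 3
      push_cast
      ring
    have hw2 : (D G) ∣[(1 : ℤ) + ((m + 1 : ℕ) : ℤ)] g =
        ((g.val.det : ℂ)⁻¹) • ((fun τ : ℍ ↦ denom g τ) * ((D G) ∣[(1 : ℤ) + m + 2] g)) := by
      rw [slash_eq_denom_mul_slash_succ _ (D G) hg]
      congr 3
    have hDG : D^[m + 1] F = D G := by rw [hG, Function.iterate_succ_apply']
    rw [hw1, iterate_D_smul _ _ (hJ.mul hH), iterate_D_denom_mul m g hH,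
      Function.iterate_succ_apply' D m H, ih,
      normalizedDerivOfComplex_smul _ _ (hGm.slash _ g),
      normalizedDerivOfComplex_slash hGm hg, hDG, hw2]
    ext z
    have hz := denom_ne_zero g z
    simp only [Pi.add_apply, Pi.mul_apply, Pi.smul_apply, smul_eq_mul, pow_succ]
    push_cast
    field_simp
    ring

theorem bol_SL (m : ℕ) {F : ℍ → ℂ} (hF : MDiff F) (γ : SL(2, ℤ)) :
    D^[m] (F ∣[(1 : ℤ) - m] γ) = (D^[m] F) ∣[(1 : ℤ) + m] γ := by
  have hdet : (γ : GL (Fin 2) ℝ).val.det = 1 := by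
    rw [← Matrix.GeneralLinearGroup.val_det_apply]; simp
  have h := bol m hF (g := (γ : GL (Fin 2) ℝ)) (by rw [hdet]; exact one_pos)
  rw [hdet] at h
  simpa [ModularForm.SL_slash] using h

end

end Fermat.Agent.S22_helper15
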